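/-
S48 (Deligne–Serre), brick D, analytic half (D1): the cotangent-series bridge as a proposition.

`CotBridge` is the statement that the Eisenstein–Kronecker function `E₁(z; τ)` of
`Fermat.Agent.S48.Eis1Zeta` is the (Eisenstein-summed) cotangent series
`π cot πz + ∑_{m ≥ 1} (π cot π(z + mτ) + π cot π(z - mτ))` away from the lattice.  The files of
`Fermat/Agent/S48/Eis1/` derive the `q`-expansion, holomorphy and boundedness of the division
values from this single hypothesis.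
-/
import Fermat.Agent.S48.Eis1Zeta

set_option autoImplicit false

open UpperHalfPlane hiding I
open Complex Real Filter Topology

noncomputable section

namespace Fermat.Agent.S48.Eis1

/-- The cotangent-series bridge: for `z` off the lattice `ℤτ + ℤ`, the partial sums of
`π cot π(z + mτ) + π cot π(z - mτ)` (`m ≥ 1`) converge to `E₁(z; τ) - π cot πz`. -/
def CotBridge : Prop :=
  ∀ (z : ℂ) (τ : ℍ), (∀ v : Fin 2 → ℤ, z ≠ Eis1Zeta.lat v τ) →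
    Tendsto (fun N : ℕ => ∑ m ∈ Finset.range N,
      (π * cot (π * (z + (m + 1) * τ)) + π * cot (π * (z - (m + 1) * τ)))) atTop
      (𝓝 (Eis1Zeta.E1 z τ - π * cot (π * z)))

/-- Real points `b/ℓ` with `ℓ ∤ b` are off the lattice. -/
lemma div_ne_lat (ℓ : ℕ) [NeZero ℓ] (b : ℤ) (hb : ¬ (ℓ : ℤ) ∣ b) (τ : ℍ) (v : Fin 2 → ℤ) :
    ((b : ℂ) / (ℓ : ℂ)) ≠ Eis1Zeta.lat v τ := by
  intro h
  have hℓ : (ℓ : ℝ) ≠ 0 := Nat.cast_ne_zero.mpr (NeZero.ne ℓ)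
  have hℓc : (ℓ : ℂ) ≠ 0 := Nat.cast_ne_zero.mpr (NeZero.ne ℓ)
  have him := congrArg Complex.im h
  have h1 : ((b : ℂ) / (ℓ : ℂ)).im = 0 := by
    have : ((b : ℂ) / (ℓ : ℂ)) = (((b : ℝ) / (ℓ : ℝ) : ℝ) : ℂ) := by push_cast; rfl
    rw [this, Complex.ofReal_im]
  have h2 : (Eis1Zeta.lat v τ).im = (v 0 : ℝ) * τ.im := by
    simp [Eis1Zeta.lat]
  rw [h1, h2] at him
  have hv0 : v 0 = 0 := by
    have := τ.im_pos
    have h3 : (v 0 : ℝ) = 0 := by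
      rcases mul_eq_zero.mp him.symm with h | h
      · exact h
      · exact absurd h this.ne'
    exact_mod_cast h3
  apply hb
  refine ⟨v 1, ?_⟩
  have h4 : (b : ℂ) = (ℓ : ℂ) * (v 1 : ℂ) := by
    have h5 : (b : ℂ) / (ℓ : ℂ) = (v 1 : ℂ) := by
      rw [h]; simp [Eis1Zeta.lat, hv0]
    field_simp at h5
    linear_combination h5
  exact_mod_cast h4

/-- General division points `(aτ + b)/ℓ` with `(a, b) ∉ ℓℤ²` are off the lattice. -/
lemma divpt_ne_lat (ℓ : ℕ) [NeZero ℓ] (a b : ℤ) (hab : ¬ ((ℓ : ℤ) ∣ a ∧ (ℓ : ℤ) ∣ b)) (τ : ℍ)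
    (v : Fin 2 → ℤ) :
    (((a : ℂ) * (τ : ℂ) + (b : ℂ)) / (ℓ : ℂ)) ≠ Eis1Zeta.lat v τ := by
  intro h
  have hℓ : (ℓ : ℝ) ≠ 0 := Nat.cast_ne_zero.mpr (NeZero.ne ℓ)
  have hℓc : (ℓ : ℂ) ≠ 0 := Nat.cast_ne_zero.mpr (NeZero.ne ℓ)
  have h0 : (a : ℂ) * (τ : ℂ) + (b : ℂ) = (ℓ : ℂ) * ((v 0 : ℂ) * (τ : ℂ) + (v 1 : ℂ)) := by
    unfold Eis1Zeta.lat at h
    field_simp at h
    linear_combination h
  have him := congrArg Complex.im h0
  have hre := congrArg Complex.re h0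
  simp at him hre
  have hτ := τ.im_pos
  have ha : (a : ℝ) = (ℓ : ℝ) * (v 0 : ℝ) := by
    have : ((a : ℝ) - (ℓ : ℝ) * (v 0 : ℝ)) * τ.im = 0 := by linarith
    rcases mul_eq_zero.mp this with h1 | h1
    · linarith
    · exact absurd h1 hτ.ne'
  have hb : (b : ℝ) = (ℓ : ℝ) * (v 1 : ℝ) := by
    have h2 : (a : ℝ) * τ.re + b = (ℓ : ℝ) * ((v 0 : ℝ) * τ.re + v 1) := by linarith
    rw [ha] at h2
    linarith
  exact hab ⟨⟨v 0, by exact_mod_cast ha⟩, ⟨v 1, by exact_mod_cast hb⟩⟩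

end Fermat.Agent.S48.Eis1
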