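/-
S48 (Deligne–Serre), brick D, analytic half (D1), piece (R): boundedness at `i∞` (and, as a
by-product, holomorphy) of the weight one division values `Ediv ℓ a b`, `0 ≤ a < ℓ`, from the
cotangent bridge.

Method: with `u = e(z)`, `q = e(τ)` one has, for `z` off the lattice and `m ≥ 1`,
`π cot π(z + mτ) + π cot π(z - mτ) = -2πi (u q^m / (1 - u q^m) - q^m / (u - q^m))`,
so that `E₁(z; τ) = π cot πz - 2πi ∑_{m ≥ 1} T u (q^m)` with an absolutely convergent series,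
uniformly bounded by a geometric series on every half plane `{Im τ ≥ c}` at the division points
`z = (aτ + b)/ℓ`, `0 ≤ a < ℓ`.
-/
import Fermat.Agent.S48.Eis1.Bridge

set_option autoImplicit false

open UpperHalfPlane hiding I
open Complex Real Filter Topology
open scoped Manifold

noncomputable section

namespace Fermat.Agent.S48.Eis1

namespace Bdd

open Fermat.Agent.S48.Eis1Zeta

/-- The `m`-th term of the `(u, q)`-series, in the variables `u = e(z)`, `x = q ^ m`. -/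
def T (u x : ℂ) : ℂ := u * x / (1 - u * x) - x / (u - x)

lemma cot_pair (u x : ℂ) (hx : x ≠ 0) (h1 : 1 - u * x ≠ 0) (h2 : u - x ≠ 0) :
    π * ((u * x + 1) / (I * (1 - u * x))) + π * ((u / x + 1) / (I * (1 - u / x))) =
      -2 * π * I * T u x := by
  have hI : (I : ℂ) ≠ 0 := I_ne_zero
  have h3 : 1 - u / x ≠ 0 := by
    intro h
    apply h2
    have : u / x = 1 := by linear_combination -h
    rw [div_eq_one_iff_eq hx] at this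
    rw [this, sub_self]
  have h4 : x - u ≠ 0 := fun h => h2 (by linear_combination -h)
  unfold T
  have e1 : (u / x + 1) / (I * (1 - u / x)) = (u + x) / (I * (x - u)) := by
    field_simp
  rw [e1]
  have e2 : x / (u - x) = - (x / (x - u)) := by
    field_simp
    ring
  rw [e2]
  field_simp
  ring_nf
  rw [I_sq]
  ring

lemma exp_two_pi_add (z τ : ℂ) (m : ℕ) :
    cexp (2 * π * I * (z + (m + 1) * τ)) =
      cexp (2 * π * I * z) * cexp (2 * π * I * τ) ^ (m + 1) := by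
  rw [← Complex.exp_nat_mul, ← Complex.exp_add]
  congr 1
  push_cast
  ring

lemma exp_two_pi_sub (z τ : ℂ) (m : ℕ) :
    cexp (2 * π * I * (z - (m + 1) * τ)) =
      cexp (2 * π * I * z) / cexp (2 * π * I * τ) ^ (m + 1) := by
  rw [← Complex.exp_nat_mul, ← Complex.exp_sub]
  congr 1
  push_cast
  ring

/-- Off the lattice, `1 - e(z + mτ) ≠ 0`. -/
lemma one_sub_ne_zero (z : ℂ) (τ : ℍ) (hz : ∀ v : Fin 2 → ℤ, z ≠ lat v τ) (m : ℤ) :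
    1 - cexp (2 * π * I * (z + m * τ)) ≠ 0 := by
  intro h
  have h1 : cexp (2 * π * I * (z + m * τ)) = 1 := by linear_combination -h
  rw [Complex.exp_eq_one_iff] at h1
  obtain ⟨n, hn⟩ := h1
  have hpi : (2 * π * I : ℂ) ≠ 0 := by
    simp [Real.pi_ne_zero, I_ne_zero]
  have h2 : z + m * τ = n := by
    have : (2 * π * I : ℂ) * (z + m * τ) = (2 * π * I) * n := by rw [hn]; ring
    exact mul_left_cancel₀ hpi this
  apply hz ![-m, n]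
  simp only [lat, Matrix.cons_val_zero, Matrix.cons_val_one]
  push_cast
  linear_combination h2

/-- The pair of cotangents at `z ± (m+1) τ` in the variables `u = e(z)`, `q = e(τ)`. -/
lemma cot_pair_eq (z : ℂ) (τ : ℍ) (hz : ∀ v : Fin 2 → ℤ, z ≠ lat v τ) (m : ℕ) :
    π * cot (π * (z + (m + 1) * τ)) + π * cot (π * (z - (m + 1) * τ)) =
      -2 * π * I * T (cexp (2 * π * I * z)) (cexp (2 * π * I * τ) ^ (m + 1)) := by
  rw [cot_pi_eq_exp_ratio, cot_pi_eq_exp_ratio, exp_two_pi_add, exp_two_pi_sub]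
  have hq : cexp (2 * π * I * τ) ^ (m + 1) ≠ 0 := pow_ne_zero _ (Complex.exp_ne_zero _)
  refine cot_pair _ _ hq ?_ ?_
  · have h := one_sub_ne_zero z τ hz ((m + 1 : ℕ) : ℤ)
    rw [← exp_two_pi_add]
    convert h using 4
    push_cast
    ring
  · have h := one_sub_ne_zero z τ hz (-((m + 1 : ℕ) : ℤ))
    intro h0
    apply h
    have e : cexp (2 * π * I * (z + ((-((m + 1 : ℕ) : ℤ) : ℤ) : ℂ) * τ)) =
        cexp (2 * π * I * z) / cexp (2 * π * I * τ) ^ (m + 1) := by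
      rw [← exp_two_pi_sub]
      congr 1
      push_cast
      ring
    rw [e]
    have : cexp (2 * π * I * z) = cexp (2 * π * I * τ) ^ (m + 1) := by linear_combination h0
    rw [this, div_self hq, sub_self]

/-- The cot bridge in the `(u, q)`-variables. -/
lemma tendsto_T (Hc : CotBridge) (z : ℂ) (τ : ℍ) (hz : ∀ v : Fin 2 → ℤ, z ≠ lat v τ) :
    Tendsto (fun N : ℕ => ∑ m ∈ Finset.range N,
      T (cexp (2 * π * I * z)) (cexp (2 * π * I * τ) ^ (m + 1))) atTop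
      (𝓝 ((E1 z τ - π * cot (π * z)) / (-2 * π * I))) := by
  have h := Hc z τ hz
  have hpi : (-2 * π * I : ℂ) ≠ 0 := by
    simp [Real.pi_ne_zero, I_ne_zero]
  have h2 := h.div_const (-2 * π * I)
  refine h2.congr fun N => ?_
  rw [Finset.sum_div]
  refine Finset.sum_congr rfl fun m _ => ?_
  rw [cot_pair_eq z τ hz m]
  field_simp


/-! ### The division points -/

/-- `u = e((a w + b)/ℓ)` as a function of the complex variable `w`. -/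
def uu (ℓ : ℕ) (a b : ℤ) (w : ℂ) : ℂ := cexp (2 * π * I * (((a : ℂ) * w + (b : ℂ)) / (ℓ : ℂ)))

/-- `q = e(w)`. -/
def qq (w : ℂ) : ℂ := cexp (2 * π * I * w)

lemma uu_ne_zero (ℓ : ℕ) (a b : ℤ) (w : ℂ) : uu ℓ a b w ≠ 0 := Complex.exp_ne_zero _

lemma qq_ne_zero (w : ℂ) : qq w ≠ 0 := Complex.exp_ne_zero _

lemma re_two_pi_I_mul (Z : ℂ) : (2 * π * I * Z).re = -(2 * π) * Z.im := by
  simp [Complex.mul_re, Complex.mul_im]

lemma im_divpt (ℓ : ℕ) (a b : ℤ) (w : ℂ) :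
    (((a : ℂ) * w + (b : ℂ)) / (ℓ : ℂ)).im = (a : ℝ) * w.im / (ℓ : ℝ) := by
  rw [Complex.div_natCast_im]
  simp [Complex.mul_im]

lemma norm_uu (ℓ : ℕ) (a b : ℤ) (w : ℂ) :
    ‖uu ℓ a b w‖ = Real.exp (-(2 * π) * ((a : ℝ) * w.im / (ℓ : ℝ))) := by
  unfold uu
  rw [Complex.norm_exp, re_two_pi_I_mul, im_divpt]

lemma norm_qq_pow (w : ℂ) (n : ℕ) :
    ‖qq w ^ n‖ = Real.exp (-(2 * π) * ((n : ℝ) * w.im)) := by
  unfold qq
  rw [← Complex.exp_nat_mul, Complex.norm_exp]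
  congr 1
  have : ((n : ℂ) * (2 * π * I * w)) = 2 * π * I * ((n : ℂ) * w) := by ring
  rw [this, re_two_pi_I_mul]
  simp [Complex.mul_im]

/-- The decay rate on the half plane `{Im w ≥ c}`. -/
def rho (ℓ : ℕ) (c : ℝ) : ℝ := Real.exp (-(2 * π * c / (ℓ : ℝ)))

lemma rho_pos (ℓ : ℕ) (c : ℝ) : 0 < rho ℓ c := Real.exp_pos _

lemma rho_lt_one (ℓ : ℕ) [NeZero ℓ] {c : ℝ} (hc : 0 < c) : rho ℓ c < 1 := by
  unfold rho
  rw [Real.exp_lt_one_iff]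
  have hℓ : (0 : ℝ) < (ℓ : ℝ) := Nat.cast_pos.mpr (Nat.pos_of_ne_zero (NeZero.ne ℓ))
  have : 0 < 2 * π * c / (ℓ : ℝ) := by positivity
  linarith

lemma rho_pow (ℓ : ℕ) (c : ℝ) (n : ℕ) :
    rho ℓ c ^ n = Real.exp (-(2 * π) * ((n : ℝ) * c / (ℓ : ℝ))) := by
  unfold rho
  rw [← Real.exp_nat_mul]
  congr 1
  ring

/-- First bound: `‖u q^(m+1)‖ ≤ ρ^(m+1)`. -/
lemma norm_uu_mul_le (ℓ : ℕ) [NeZero ℓ] (a b : ℤ) (ha0 : 0 ≤ a) {c : ℝ} (hc : 0 ≤ c) {w : ℂ}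
    (hw : c ≤ w.im) (m : ℕ) :
    ‖uu ℓ a b w * qq w ^ (m + 1)‖ ≤ rho ℓ c ^ (m + 1) := by
  rw [norm_mul, norm_uu, norm_qq_pow, ← Real.exp_add, rho_pow, Real.exp_le_exp]
  have hℓ : (1 : ℝ) ≤ (ℓ : ℝ) := by
    exact_mod_cast Nat.one_le_iff_ne_zero.mpr (NeZero.ne ℓ)
  have ha : (0 : ℝ) ≤ (a : ℝ) := by exact_mod_cast ha0
  have hm : (0 : ℝ) < ((m + 1 : ℕ) : ℝ) := by positivity
  have hwim : 0 ≤ w.im := le_trans hc hw
  have h1 : ((m + 1 : ℕ) : ℝ) * c / (ℓ : ℝ) ≤ ((m + 1 : ℕ) : ℝ) * c := by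
    apply div_le_self (by positivity) hℓ
  have h2 : ((m + 1 : ℕ) : ℝ) * c ≤ ((m + 1 : ℕ) : ℝ) * w.im :=
    mul_le_mul_of_nonneg_left hw hm.le
  have h3 : 0 ≤ (a : ℝ) * w.im / (ℓ : ℝ) := by positivity
  have hpi : 0 < 2 * π := by positivity
  nlinarith

/-- Second bound: `‖q^(m+1) / u‖ ≤ ρ^(m+1)` for `0 ≤ a < ℓ`. -/
lemma norm_qq_div_le (ℓ : ℕ) [NeZero ℓ] (a b : ℤ) (hal : a < ℓ) {c : ℝ} (hc : 0 ≤ c) {w : ℂ}
    (hw : c ≤ w.im) (m : ℕ) :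
    ‖qq w ^ (m + 1) / uu ℓ a b w‖ ≤ rho ℓ c ^ (m + 1) := by
  rw [norm_div, norm_uu, norm_qq_pow, ← Real.exp_sub, rho_pow, Real.exp_le_exp]
  have hℓ : (1 : ℝ) ≤ (ℓ : ℝ) := by
    exact_mod_cast Nat.one_le_iff_ne_zero.mpr (NeZero.ne ℓ)
  have hℓ0 : (0 : ℝ) < (ℓ : ℝ) := by linarith
  have ha : (a : ℝ) ≤ (ℓ : ℝ) - 1 := by
    have : a ≤ (ℓ : ℤ) - 1 := by omega
    exact_mod_cast this
  have hwim : 0 ≤ w.im := le_trans hc hw
  have hpi : 0 < 2 * π := by positivity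
  -- the key inequality `(m+1) c / ℓ ≤ (m+1) w.im - a w.im / ℓ`
  have key : ((m + 1 : ℕ) : ℝ) * c / (ℓ : ℝ) ≤
      ((m + 1 : ℕ) : ℝ) * w.im - (a : ℝ) * w.im / (ℓ : ℝ) := by
    rw [div_le_iff₀ hℓ0]
    have e : (((m + 1 : ℕ) : ℝ) * w.im - (a : ℝ) * w.im / (ℓ : ℝ)) * (ℓ : ℝ) =
        (((m + 1 : ℕ) : ℝ) * (ℓ : ℝ) - (a : ℝ)) * w.im := by
      field_simp
    rw [e]
    have h1 : ((m + 1 : ℕ) : ℝ) ≤ ((m + 1 : ℕ) : ℝ) * (ℓ : ℝ) - (a : ℝ) := by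
      push_cast
      have hm : (0 : ℝ) ≤ (m : ℝ) := Nat.cast_nonneg m
      nlinarith
    have h2 : ((m + 1 : ℕ) : ℝ) * c ≤ ((m + 1 : ℕ) : ℝ) * w.im :=
      mul_le_mul_of_nonneg_left hw (by positivity)
    have h3 : ((m + 1 : ℕ) : ℝ) * w.im ≤ (((m + 1 : ℕ) : ℝ) * (ℓ : ℝ) - (a : ℝ)) * w.im :=
      mul_le_mul_of_nonneg_right h1 hwim
    linarith
  nlinarith

/-- `‖y / (1 - y)‖ ≤ t / (1 - ρ)` when `‖y‖ ≤ t ≤ ρ < 1`. -/
lemma norm_div_one_sub_le {y : ℂ} {t ρ : ℝ} (hy : ‖y‖ ≤ t) (ht : t ≤ ρ) (hρ : ρ < 1) :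
    ‖y / (1 - y)‖ ≤ t / (1 - ρ) := by
  have h1 : 1 - ρ ≤ ‖1 - y‖ := by
    have := norm_sub_norm_le (1 : ℂ) y
    rw [norm_one] at this
    linarith
  have h2 : 0 < 1 - ρ := by linarith
  rw [norm_div]
  exact div_le_div₀ (le_trans (norm_nonneg _) hy) hy h2 h1

lemma one_sub_ne_zero_of_norm_lt {y : ℂ} (hy : ‖y‖ < 1) : 1 - y ≠ 0 := by
  intro h
  have : y = 1 := by linear_combination -h
  rw [this, norm_one] at hy
  exact lt_irrefl _ hy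

/-- `T` in the variables `y₁ = u x`, `y₂ = x / u`. -/
lemma T_eq_of_ne (u x : ℂ) (hu : u ≠ 0) (h : 1 - x / u ≠ 0) :
    T u x = u * x / (1 - u * x) - (x / u) / (1 - x / u) := by
  unfold T
  congr 1
  have h2 : u - x ≠ 0 := by
    intro h0
    apply h
    have : x = u := by linear_combination -h0
    rw [this, div_self hu, sub_self]
  field_simp

/-- The term of the series at the division point, as a function of `w`. -/
def term (ℓ : ℕ) (a b : ℤ) (m : ℕ) (w : ℂ) : ℂ := T (uu ℓ a b w) (qq w ^ (m + 1))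

lemma norm_term_le (ℓ : ℕ) [NeZero ℓ] (a b : ℤ) (ha0 : 0 ≤ a) (hal : a < ℓ) {c : ℝ} (hc : 0 < c)
    {w : ℂ} (hw : c ≤ w.im) (m : ℕ) :
    ‖term ℓ a b m w‖ ≤ 2 / (1 - rho ℓ c) * rho ℓ c ^ (m + 1) := by
  have hρ1 := rho_lt_one ℓ hc
  have hρ0 := rho_pos ℓ c
  have hpow : rho ℓ c ^ (m + 1) ≤ rho ℓ c := by
    calc rho ℓ c ^ (m + 1) ≤ rho ℓ c ^ 1 :=
          pow_le_pow_of_le_one hρ0.le hρ1.le (by omega)
      _ = rho ℓ c := pow_one _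
  have b1 := norm_uu_mul_le ℓ a b ha0 hc.le hw m
  have b2 := norm_qq_div_le ℓ a b hal hc.le hw m
  have hne : 1 - qq w ^ (m + 1) / uu ℓ a b w ≠ 0 :=
    one_sub_ne_zero_of_norm_lt (lt_of_le_of_lt (le_trans b2 hpow) hρ1)
  unfold term
  rw [T_eq_of_ne _ _ (uu_ne_zero ℓ a b w) hne]
  have c1 := norm_div_one_sub_le b1 hpow hρ1
  have c2 := norm_div_one_sub_le b2 hpow hρ1
  calc ‖uu ℓ a b w * qq w ^ (m + 1) / (1 - uu ℓ a b w * qq w ^ (m + 1)) -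
        qq w ^ (m + 1) / uu ℓ a b w / (1 - qq w ^ (m + 1) / uu ℓ a b w)‖
      ≤ ‖uu ℓ a b w * qq w ^ (m + 1) / (1 - uu ℓ a b w * qq w ^ (m + 1))‖ +
        ‖qq w ^ (m + 1) / uu ℓ a b w / (1 - qq w ^ (m + 1) / uu ℓ a b w)‖ := norm_sub_le _ _
    _ ≤ rho ℓ c ^ (m + 1) / (1 - rho ℓ c) + rho ℓ c ^ (m + 1) / (1 - rho ℓ c) := add_le_add c1 c2
    _ = 2 / (1 - rho ℓ c) * rho ℓ c ^ (m + 1) := by ring

lemma summable_bound (ℓ : ℕ) [NeZero ℓ] {c : ℝ} (hc : 0 < c) :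
    Summable fun m : ℕ => 2 / (1 - rho ℓ c) * rho ℓ c ^ (m + 1) := by
  have h := summable_geometric_of_lt_one (rho_pos ℓ c).le (rho_lt_one ℓ hc)
  exact ((summable_nat_add_iff 1).mpr h).mul_left _

lemma summable_term (ℓ : ℕ) [NeZero ℓ] (a b : ℤ) (ha0 : 0 ≤ a) (hal : a < ℓ) {w : ℂ}
    (hw : 0 < w.im) : Summable fun m : ℕ => term ℓ a b m w :=
  Summable.of_norm_bounded (summable_bound ℓ hw)
    (fun m => norm_term_le ℓ a b ha0 hal hw le_rfl m)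


/-! ### The `(u, q)`-series of the division values -/

/-- `E₁` at a division point `(aτ + b)/ℓ`, `0 ≤ a < ℓ`, as an absolutely convergent series. -/
theorem E1_divpt_eq (Hc : CotBridge) (ℓ : ℕ) [NeZero ℓ] (a b : ℤ) (ha0 : 0 ≤ a) (hal : a < ℓ)
    (hab : ¬ ((ℓ : ℤ) ∣ a ∧ (ℓ : ℤ) ∣ b)) (τ : ℍ) :
    E1 (((a : ℂ) * (τ : ℂ) + (b : ℂ)) / (ℓ : ℂ)) τ =
      π * cot (π * (((a : ℂ) * (τ : ℂ) + (b : ℂ)) / (ℓ : ℂ))) +
        (-2 * π * I) * ∑' m : ℕ, term ℓ a b m τ := by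
  have ht := tendsto_T Hc _ τ (divpt_ne_lat ℓ a b hab τ)
  have hs := (summable_term ℓ a b ha0 hal τ.im_pos).hasSum.tendsto_sum_nat
  have h := tendsto_nhds_unique hs ht
  have hpi : (-2 * π * I : ℂ) ≠ 0 := by
    simp [Real.pi_ne_zero, I_ne_zero]
  rw [h]
  field_simp
  ring

/-- The division value `Ediv ℓ a b`, `0 ≤ a < ℓ`, as an absolutely convergent series. -/
theorem Ediv_eq_uq (Hc : CotBridge) (ℓ : ℕ) [NeZero ℓ] (a b : ℤ) (ha0 : 0 ≤ a) (hal : a < ℓ)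
    (hab : ¬ ((ℓ : ℤ) ∣ a ∧ (ℓ : ℤ) ∣ b)) (τ : ℍ) :
    Ediv ℓ a b τ =
      π * cot (π * (((a : ℂ) * (τ : ℂ) + (b : ℂ)) / (ℓ : ℂ))) + 2 * π * I * (a : ℂ) / (ℓ : ℂ) +
        (-2 * π * I) * ∑' m : ℕ, term ℓ a b m τ := by
  unfold Ediv
  rw [E1_divpt_eq Hc ℓ a b ha0 hal hab τ]
  ring

lemma norm_tsum_term_le (ℓ : ℕ) [NeZero ℓ] (a b : ℤ) (ha0 : 0 ≤ a) (hal : a < ℓ) {c : ℝ}
    (hc : 0 < c) {w : ℂ} (hw : c ≤ w.im) :
    ‖∑' m : ℕ, term ℓ a b m w‖ ≤ ∑' m : ℕ, 2 / (1 - rho ℓ c) * rho ℓ c ^ (m + 1) :=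
  tsum_of_norm_bounded (summable_bound ℓ hc).hasSum (fun m => norm_term_le ℓ a b ha0 hal hc hw m)

/-- The head `π cot πz` at a division point with `1 ≤ a`, on `{Im τ ≥ 1}`. -/
lemma norm_head_le (ℓ : ℕ) [NeZero ℓ] (a b : ℤ) (ha1 : 1 ≤ a) (τ : ℍ) (hτ : 1 ≤ τ.im) :
    ‖(π : ℂ) * cot (π * (((a : ℂ) * (τ : ℂ) + (b : ℂ)) / (ℓ : ℂ)))‖ ≤
      2 * π / (1 - rho ℓ 1) := by
  have hρ1 := rho_lt_one ℓ (c := 1) one_pos
  have hℓ0 : (0 : ℝ) < (ℓ : ℝ) := Nat.cast_pos.mpr (Nat.pos_of_ne_zero (NeZero.ne ℓ))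
  rw [cot_pi_eq_exp_ratio]
  have hu : ‖cexp (2 * π * I * (((a : ℂ) * (τ : ℂ) + (b : ℂ)) / (ℓ : ℂ)))‖ ≤ rho ℓ 1 := by
    have := norm_uu ℓ a b (τ : ℂ)
    unfold uu at this
    rw [this]
    unfold rho
    rw [Real.exp_le_exp]
    have ha : (1 : ℝ) ≤ (a : ℝ) := by exact_mod_cast ha1
    have h1 : (1 : ℝ) ≤ (a : ℝ) * (τ : ℂ).im := by
      have : (τ : ℂ).im = τ.im := rfl
      rw [this]
      nlinarith
    have h2 : 1 / (ℓ : ℝ) ≤ (a : ℝ) * (τ : ℂ).im / (ℓ : ℝ) :=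
      div_le_div_of_nonneg_right h1 hℓ0.le
    have hpi : 0 < 2 * π := by positivity
    have e : 2 * π * 1 / (ℓ : ℝ) = 2 * π * (1 / (ℓ : ℝ)) := by ring
    rw [e]
    nlinarith
  set u : ℂ := cexp (2 * π * I * (((a : ℂ) * (τ : ℂ) + (b : ℂ)) / (ℓ : ℂ))) with hudef
  have h1 : ‖u + 1‖ ≤ 2 := by
    calc ‖u + 1‖ ≤ ‖u‖ + ‖(1 : ℂ)‖ := norm_add_le _ _
      _ ≤ rho ℓ 1 + 1 := by rw [norm_one]; linarith
      _ ≤ 2 := by linarith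
  have h2 : 1 - rho ℓ 1 ≤ ‖1 - u‖ := by
    have := norm_sub_norm_le (1 : ℂ) u
    rw [norm_one] at this
    linarith
  have h3 : 0 < 1 - rho ℓ 1 := by linarith
  rw [norm_mul, norm_div, norm_mul, Complex.norm_I, one_mul, Complex.norm_real,
    Real.norm_of_nonneg Real.pi_pos.le]
  calc π * (‖u + 1‖ / ‖1 - u‖) ≤ π * (2 / (1 - rho ℓ 1)) := by
        apply mul_le_mul_of_nonneg_left _ Real.pi_pos.le
        exact div_le_div₀ (by norm_num) h1 h3 h2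
    _ = 2 * π / (1 - rho ℓ 1) := by ring

end Bdd

open Bdd in
/-- **(R)**: the division values `Ediv ℓ a b`, `0 ≤ a < ℓ`, `(a, b) ∉ ℓℤ²`, are bounded at
`i∞`. -/
theorem bdd_of_bridge (hc : CotBridge) (ℓ : ℕ) [NeZero ℓ] (a b : ℤ) (ha0 : 0 ≤ a) (hal : a < ℓ)
    (h : ¬ ((ℓ : ℤ) ∣ a ∧ (ℓ : ℤ) ∣ b)) : IsBoundedAtImInfty (Eis1Zeta.Ediv ℓ a b) := by
  rw [isBoundedAtImInfty_iff]
  refine ⟨‖(π : ℂ) * cot (π * ((b : ℂ) / (ℓ : ℂ)))‖ + 2 * π / (1 - rho ℓ 1) +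
      ‖2 * π * I * (a : ℂ) / (ℓ : ℂ)‖ +
      ‖(-2 * π * I : ℂ)‖ * ∑' m : ℕ, 2 / (1 - rho ℓ 1) * rho ℓ 1 ^ (m + 1), 1, fun τ hτ => ?_⟩
  rw [Ediv_eq_uq hc ℓ a b ha0 hal h τ]
  have hρ1 := rho_lt_one ℓ (c := 1) one_pos
  have h3 : 0 < 1 - rho ℓ 1 := by linarith
  have htail := norm_tsum_term_le ℓ a b ha0 hal one_pos (w := (τ : ℂ)) hτ
  have hhead : ‖(π : ℂ) * cot (π * (((a : ℂ) * (τ : ℂ) + (b : ℂ)) / (ℓ : ℂ)))‖ ≤
      ‖(π : ℂ) * cot (π * ((b : ℂ) / (ℓ : ℂ)))‖ + 2 * π / (1 - rho ℓ 1) := by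
    rcases eq_or_lt_of_le ha0 with ha | ha
    · subst ha
      have e : (((0 : ℤ) : ℂ) * (τ : ℂ) + (b : ℂ)) / (ℓ : ℂ) = (b : ℂ) / (ℓ : ℂ) := by simp
      rw [e]
      have : 0 ≤ 2 * π / (1 - rho ℓ 1) := by positivity
      linarith
    · have := norm_head_le ℓ a b (by omega) τ hτ
      have h0 := norm_nonneg ((π : ℂ) * cot (π * ((b : ℂ) / (ℓ : ℂ))))
      linarith
  calc ‖(π : ℂ) * cot (π * (((a : ℂ) * (τ : ℂ) + (b : ℂ)) / (ℓ : ℂ))) +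
        2 * π * I * (a : ℂ) / (ℓ : ℂ) + (-2 * π * I) * ∑' m : ℕ, term ℓ a b m τ‖
      ≤ ‖(π : ℂ) * cot (π * (((a : ℂ) * (τ : ℂ) + (b : ℂ)) / (ℓ : ℂ)))‖ +
        ‖2 * π * I * (a : ℂ) / (ℓ : ℂ)‖ + ‖(-2 * π * I) * ∑' m : ℕ, term ℓ a b m τ‖ :=
        norm_add₃_le
    _ ≤ _ := by
        have e : ‖(-2 * π * I) * ∑' m : ℕ, term ℓ a b m τ‖ =
            ‖(-2 * π * I : ℂ)‖ * ‖∑' m : ℕ, term ℓ a b m τ‖ := norm_mul _ _
        have := mul_le_mul_of_nonneg_left htail (norm_nonneg (-2 * π * I : ℂ))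
        linarith

end Fermat.Agent.S48.Eis1
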