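/-
S48 (Deligne–Serre), brick D, analytic half (D1): the `q`-expansion and the holomorphy of the
division values `E_(0,b)`, from the cotangent-series bridge `CotBridge`.
-/
import Fermat.Agent.S48.Eis1.Bridge
import Fermat.Agent.S48.Eis1Arith.Input

set_option autoImplicit false

open UpperHalfPlane hiding I
open Complex Real Filter Topology
open scoped Manifold

noncomputable section

namespace Fermat.Agent.S48.Eis1

/-- For `Im w > 0`: `π cot πw + πi = -2πi ∑_{n ≥ 1} e(w)^n`. -/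
lemma hasSum_cot_pnat (w : ℂ) (hw : 0 < w.im) :
    HasSum (fun n : ℕ+ => -(2 * π * I) * cexp (2 * π * I * w) ^ (n : ℕ))
      (π * cot (π * w) + π * I) := by
  have hx : ‖cexp (2 * π * I * w)‖ < 1 := UpperHalfPlane.norm_exp_two_pi_I_lt_one ⟨w, hw⟩
  have h := pi_mul_cot_pi_q_exp ⟨w, hw⟩
  have hg := hasSum_geometric_of_norm_lt_one hx
  have h1 : HasSum (fun n : ℕ => cexp (2 * π * I * w) ^ n)
      (∑' n : ℕ, cexp (2 * π * I * w) ^ n) := hg.summable.hasSum
  have h2 : HasSum (fun n : ℕ+ => cexp (2 * π * I * w) ^ (n : ℕ))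
      ((∑' n : ℕ, cexp (2 * π * I * w) ^ n) - 1) := by
    rw [hasSum_pnat_iff (f := fun n : ℕ => cexp (2 * π * I * w) ^ n)]
    simpa using h1
  have h3 := h2.mul_left (-(2 * π * I))
  have h' : π * cot (π * w) = π * I - 2 * π * I * ∑' n : ℕ, cexp (2 * π * I * w) ^ n := h
  have e : -(2 * π * I) * ((∑' n : ℕ, cexp (2 * π * I * w) ^ n) - 1) =
      π * cot (π * w) + π * I := by
    rw [h']
    ring
  rw [← e]
  exact h3

/-- The cotangent is odd. -/
lemma cot_neg' (x : ℂ) : Complex.cot (-x) = -Complex.cot x := by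
  rw [Complex.cot_eq_cos_div_sin, Complex.cot_eq_cos_div_sin, Complex.cos_neg, Complex.sin_neg,
    div_neg]

/-- The `m`-th pair of the cotangent series as a `q`-series, when `|Im z| < m Im τ`. -/
lemma hasSum_cot_pair (z : ℂ) (τ : ℍ) (m : ℕ+) (h1 : 0 < (z + (m : ℂ) * τ).im)
    (h2 : 0 < ((m : ℂ) * τ - z).im) :
    HasSum (fun n : ℕ+ => 4 * π * Complex.sin (2 * π * n * z) *
        cexp (2 * π * I * τ) ^ ((m : ℕ) * (n : ℕ)))
      (π * cot (π * (z + (m : ℂ) * τ)) + π * cot (π * (z - (m : ℂ) * τ))) := by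
  have ha := hasSum_cot_pnat _ h1
  have hb := hasSum_cot_pnat _ h2
  have hc := ha.sub hb
  have e1 : π * cot (π * (z + (m : ℂ) * τ)) + π * I - (π * cot (π * ((m : ℂ) * τ - z)) + π * I) =
      π * cot (π * (z + (m : ℂ) * τ)) + π * cot (π * (z - (m : ℂ) * τ)) := by
    have : π * (z - (m : ℂ) * τ) = -(π * ((m : ℂ) * τ - z)) := by ring
    rw [this, cot_neg']
    ring
  rw [e1] at hc
  have hfun : (fun n : ℕ+ => 4 * π * Complex.sin (2 * π * n * z) *
        cexp (2 * π * I * τ) ^ ((m : ℕ) * (n : ℕ))) =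
      fun n : ℕ+ => -(2 * π * I) * cexp (2 * π * I * (z + (m : ℂ) * τ)) ^ (n : ℕ) -
        -(2 * π * I) * cexp (2 * π * I * ((m : ℂ) * τ - z)) ^ (n : ℕ) := by
    funext n
    have q1 : cexp (2 * π * I * (z + (m : ℂ) * τ)) ^ (n : ℕ) =
        cexp (2 * π * n * z * I) * cexp (2 * π * I * τ) ^ ((m : ℕ) * (n : ℕ)) := by
      rw [← Complex.exp_nat_mul, ← Complex.exp_nat_mul, ← Complex.exp_add]
      congr 1
      push_cast
      ring
    have q2 : cexp (2 * π * I * ((m : ℂ) * τ - z)) ^ (n : ℕ) =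
        cexp (-(2 * π * n * z) * I) * cexp (2 * π * I * τ) ^ ((m : ℕ) * (n : ℕ)) := by
      rw [← Complex.exp_nat_mul, ← Complex.exp_nat_mul, ← Complex.exp_add]
      congr 1
      push_cast
      ring
    rw [q1, q2, Complex.sin]
    ring
  rw [hfun]
  exact hc

/-- The summand of the double `q`-series. -/
def dbl (t : ℝ) (τ : ℍ) (c : ℕ+ × ℕ+) : ℂ :=
  4 * π * Complex.sin (2 * π * c.2 * t) * cexp (2 * π * I * τ) ^ ((c.1 : ℕ) * (c.2 : ℕ))

lemma norm_sin_real_le (x : ℂ) (r : ℝ) (hx : x = (r : ℂ)) : ‖Complex.sin x‖ ≤ 1 := by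
  rw [hx, ← Complex.ofReal_sin, Complex.norm_real]
  exact Real.abs_sin_le_one _

/-- The double series `∑_{m,n ≥ 1} 4π sin(2πn t) q^{mn}` is absolutely summable for real `t`. -/
lemma summable_dbl (t : ℝ) (τ : ℍ) : Summable (dbl t τ) := by
  have hq : ‖cexp (2 * π * I * τ)‖ < 1 := UpperHalfPlane.norm_exp_two_pi_I_lt_one τ
  have h0 := summable_prod_mul_pow (𝕜 := ℂ) 0 hq
  have h1 : Summable (fun c : ℕ+ × ℕ+ =>
      4 * π * ‖cexp (2 * π * I * τ) ^ ((c.1 : ℕ) * (c.2 : ℕ))‖) := by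
    have := h0.norm.mul_left (4 * π)
    simpa using this
  refine Summable.of_norm_bounded h1 (fun c => ?_)
  unfold dbl
  rw [norm_mul, norm_mul, norm_mul]
  have hs : ‖Complex.sin (2 * π * c.2 * t)‖ ≤ 1 :=
    norm_sin_real_le _ (2 * π * ((c.2 : ℕ) : ℝ) * t) (by push_cast; ring)
  have h4 : ‖(4 : ℂ)‖ = 4 := by simp
  have hπ : ‖(π : ℂ)‖ = π := by
    rw [Complex.norm_real]; exact abs_of_pos Real.pi_pos
  rw [h4, hπ]
  have hpos : 0 ≤ ‖cexp (2 * π * I * τ) ^ ((c.1 : ℕ) * (c.2 : ℕ))‖ := norm_nonneg _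
  have h4π : 0 ≤ 4 * π := by positivity
  calc 4 * π * ‖Complex.sin (2 * π * c.2 * t)‖ * ‖cexp (2 * π * I * τ) ^ ((c.1 : ℕ) * (c.2 : ℕ))‖
      ≤ 4 * π * 1 * ‖cexp (2 * π * I * τ) ^ ((c.1 : ℕ) * (c.2 : ℕ))‖ := by gcongr
    _ = 4 * π * ‖cexp (2 * π * I * τ) ^ ((c.1 : ℕ) * (c.2 : ℕ))‖ := by ring

/-- The fibre sum over the divisor antidiagonal. -/
lemma sum_antidiagonal_fiber (f : ℕ → ℂ) (q : ℂ) (e : ℕ+) :
    ∑ x : Nat.divisorsAntidiagonal (e : ℕ), f ((divisorsAntidiagonalFactors e x).2 : ℕ) *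
        q ^ (((divisorsAntidiagonalFactors e x).1 : ℕ) * ((divisorsAntidiagonalFactors e x).2 : ℕ))
      = (∑ d ∈ (e : ℕ).divisors, f d) * q ^ (e : ℕ) := by
  have h1 : ∑ x : Nat.divisorsAntidiagonal (e : ℕ), f ((divisorsAntidiagonalFactors e x).2 : ℕ) *
        q ^ (((divisorsAntidiagonalFactors e x).1 : ℕ) * ((divisorsAntidiagonalFactors e x).2 : ℕ))
      = ∑ x ∈ Nat.divisorsAntidiagonal (e : ℕ), f x.2 * q ^ (x.1 * x.2) :=
    Finset.sum_coe_sort (Nat.divisorsAntidiagonal (e : ℕ)) (fun x => f x.2 * q ^ (x.1 * x.2))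
  rw [h1]
  have h2 : ∑ x ∈ Nat.divisorsAntidiagonal (e : ℕ), f x.2 * q ^ (x.1 * x.2) =
      ∑ x ∈ Nat.divisorsAntidiagonal (e : ℕ), f x.2 * q ^ (e : ℕ) := by
    refine Finset.sum_congr rfl fun x hx => ?_
    rw [(Nat.mem_divisorsAntidiagonal.mp hx).1]
  rw [h2, ← Finset.sum_mul]
  congr 1
  exact Nat.sum_divisorsAntidiagonal' (fun _ d => f d)

/-- The `q`-expansion of `E₁(t; τ) - π cot πt` for real `t` off the lattice. -/
theorem hasSum_E1_real (hc : CotBridge) (t : ℝ) (τ : ℍ)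
    (ht : ∀ v : Fin 2 → ℤ, (t : ℂ) ≠ Eis1Zeta.lat v τ) :
    HasSum (fun N : ℕ+ => (4 * π * ∑ d ∈ (N : ℕ).divisors, Complex.sin (2 * π * d * t)) *
        cexp (2 * π * I * τ) ^ (N : ℕ))
      (Eis1Zeta.E1 t τ - π * Complex.cot (π * (t : ℂ))) := by
  have hS := (summable_dbl t τ).hasSum
  -- rows
  have hrow : ∀ m : ℕ+, HasSum (fun n : ℕ+ => dbl t τ (m, n))
      (π * cot (π * ((t : ℂ) + (m : ℂ) * τ)) + π * cot (π * ((t : ℂ) - (m : ℂ) * τ))) := by
    intro m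
    have hm : (0 : ℝ) < ((m : ℕ) : ℝ) := by exact_mod_cast m.pos
    have him : ((m : ℂ) * (τ : ℂ)).im = ((m : ℕ) : ℝ) * τ.im := by simp
    refine hasSum_cot_pair (t : ℂ) τ m ?_ ?_
    · rw [Complex.add_im, Complex.ofReal_im, him, zero_add]
      exact mul_pos hm τ.im_pos
    · rw [Complex.sub_im, Complex.ofReal_im, him, sub_zero]
      exact mul_pos hm τ.im_pos
  have h1 := hS.prod_fiberwise hrow
  have h2 : HasSum (fun m : ℕ => π * cot (π * ((t : ℂ) + ((m : ℂ) + 1) * τ)) +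
      π * cot (π * ((t : ℂ) - ((m : ℂ) + 1) * τ))) (∑' c, dbl t τ c) := by
    have := (hasSum_pnat_iff_hasSum_succ (f := fun m : ℕ => π * cot (π * ((t : ℂ) + (m : ℂ) * τ)) +
      π * cot (π * ((t : ℂ) - (m : ℂ) * τ)))).mp h1
    simpa using this
  have h3 := tendsto_nhds_unique h2.tendsto_sum_nat (hc t τ ht)
  rw [← h3]
  -- columns: reindex by the product
  have h4 := (sigmaAntidiagonalEquivProd.hasSum_iff (f := dbl t τ)).mpr hS
  have h5 := h4.sigma (fun e => hasSum_fintype _)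
  have h6 : (fun e : ℕ+ => ∑ x : Nat.divisorsAntidiagonal (e : ℕ),
      (dbl t τ ∘ sigmaAntidiagonalEquivProd) ⟨e, x⟩) =
      fun N : ℕ+ => (4 * π * ∑ d ∈ (N : ℕ).divisors, Complex.sin (2 * π * d * t)) *
        cexp (2 * π * I * τ) ^ (N : ℕ) := by
    funext e
    have := sum_antidiagonal_fiber (fun d => 4 * π * Complex.sin (2 * π * d * t))
      (cexp (2 * π * I * τ)) e
    rw [← Finset.mul_sum] at this
    rw [← this]
    rfl
  rw [h6] at h5
  exact h5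

/-- **The `q`-expansion of the division value `E_(0,b)`** (the field `hasSum` of `DivData`). -/
theorem hasSum_Ediv_zero (hc : CotBridge) (ℓ : ℕ) [NeZero ℓ] (b : ℤ) (hb : ¬ (ℓ : ℤ) ∣ b)
    (τ : ℍ) :
    HasSum (fun N : ℕ => Eis1Arith.divCoeff ℓ b N * cexp (2 * π * Complex.I * τ) ^ N)
      (Eis1Zeta.Ediv ℓ 0 b τ) := by
  set t : ℝ := (b : ℝ) / (ℓ : ℝ) with ht
  have htc : (t : ℂ) = (b : ℂ) / (ℓ : ℂ) := by rw [ht]; push_cast; rfl
  have h1 := hasSum_E1_real hc t τ (fun v => by rw [htc]; exact div_ne_lat ℓ b hb τ v)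
  have hE : Eis1Zeta.Ediv ℓ 0 b τ = Eis1Zeta.E1 (t : ℂ) τ := by
    unfold Eis1Zeta.Ediv
    rw [htc]
    simp
  have h2 : HasSum (fun N : ℕ+ => (fun N : ℕ => Eis1Arith.divCoeff ℓ b N *
      cexp (2 * π * Complex.I * τ) ^ N) N) (Eis1Zeta.E1 t τ - π * Complex.cot (π * (t : ℂ))) := by
    have hfun : (fun N : ℕ+ => (fun N : ℕ => Eis1Arith.divCoeff ℓ b N *
        cexp (2 * π * Complex.I * τ) ^ N) N) =
        fun N : ℕ+ => (4 * π * ∑ d ∈ (N : ℕ).divisors, Complex.sin (2 * π * d * t)) *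
          cexp (2 * π * I * τ) ^ (N : ℕ) := by
      funext N
      have hN : (N : ℕ) ≠ 0 := N.pos.ne'
      simp only [Eis1Arith.divCoeff, hN, if_false]
      congr 2
      refine Finset.sum_congr rfl fun d _ => ?_
      congr 1
      rw [htc]
      ring
    rw [hfun]
    exact h1
  have h3 := (hasSum_pnat_iff (f := fun N : ℕ => Eis1Arith.divCoeff ℓ b N *
      cexp (2 * π * Complex.I * τ) ^ N)).mp h2
  have e : Eis1Zeta.E1 t τ - π * Complex.cot (π * (t : ℂ)) +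
      Eis1Arith.divCoeff ℓ b 0 * cexp (2 * π * Complex.I * τ) ^ 0 = Eis1Zeta.Ediv ℓ 0 b τ := by
    rw [hE]
    simp only [Eis1Arith.divCoeff, if_true, pow_zero, mul_one]
    rw [htc, mul_div_assoc]
    ring
  rw [← e]
  exact h3

/-- A `q`-series with linearly bounded coefficients is holomorphic on `ℍ`. -/
lemma mdiff_of_hasSum_qseries (f : ℍ → ℂ) (c : ℕ → ℂ) (C : ℝ)
    (hc : ∀ N : ℕ, ‖c N‖ ≤ C * ((N : ℝ) + 1))
    (hf : ∀ τ : ℍ, HasSum (fun N : ℕ => c N * cexp (2 * π * I * τ) ^ N) (f τ)) : MDiff f := by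
  intro τ₀
  rw [UpperHalfPlane.mdifferentiableAt_iff]
  set δ : ℝ := τ₀.im / 2 with hδ
  have hτ₀ := τ₀.im_pos
  have hδpos : 0 < δ := by positivity
  set U : Set ℂ := {w | δ < w.im} with hU
  have hUo : IsOpen U := isOpen_lt continuous_const Complex.continuous_im
  have hτU : (τ₀ : ℂ) ∈ U := by
    show δ < (τ₀ : ℂ).im
    rw [UpperHalfPlane.coe_im, hδ]
    linarith
  set r : ℝ := Real.exp (-(2 * π * δ)) with hr
  have hr1 : r < 1 := by
    rw [hr]
    apply Real.exp_lt_one_iff.mpr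
    have := Real.pi_pos
    nlinarith
  have hr0 : 0 ≤ r := (Real.exp_pos _).le
  have hC : 0 ≤ C := by
    have := (norm_nonneg _).trans (hc 0)
    simpa using this
  have hu : Summable (fun N : ℕ => C * ((N : ℝ) + 1) * r ^ N) := by
    have h1 := summable_pow_mul_geometric_of_norm_lt_one 1 (r := r)
      (by rw [Real.norm_eq_abs, abs_of_nonneg hr0]; exact hr1)
    have h0 := summable_geometric_of_lt_one hr0 hr1
    have := (h1.add h0).mul_left C
    refine this.congr (fun N => ?_)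
    simp only [pow_one]
    ring
  have hD := differentiableOn_tsum_of_summable_norm
    (F := fun (N : ℕ) (w : ℂ) => c N * cexp (2 * π * I * w) ^ N) hu (fun N => ?_) hUo
    (fun N w hw => ?_)
  · have h2 : DifferentiableAt ℂ (fun w : ℂ => ∑' N : ℕ, c N * cexp (2 * π * I * w) ^ N) τ₀ :=
      hD.differentiableAt (hUo.mem_nhds hτU)
    refine h2.congr_of_eventuallyEq ?_
    filter_upwards [hUo.mem_nhds hτU] with w hw
    have hw0 : 0 < w.im := hδpos.trans hw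
    simp only [Function.comp]
    rw [ofComplex_apply_of_im_pos hw0]
    exact ((hf ⟨w, hw0⟩).tsum_eq).symm
  · apply DifferentiableOn.const_mul
    apply DifferentiableOn.pow
    apply Differentiable.differentiableOn
    fun_prop
  · rw [norm_mul, norm_pow, Complex.norm_exp]
    have hre : (2 * π * I * w).re = -(2 * π * w.im) := by
      simp [Complex.mul_re]
    rw [hre]
    have hle : Real.exp (-(2 * π * w.im)) ≤ r := by
      rw [hr]
      apply Real.exp_le_exp.mpr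
      have := Real.pi_pos
      have hw' : δ < w.im := hw
      nlinarith
    have h0 : 0 ≤ Real.exp (-(2 * π * w.im)) := (Real.exp_pos _).le
    calc ‖c N‖ * Real.exp (-(2 * π * w.im)) ^ N ≤ (C * ((N : ℝ) + 1)) * r ^ N := by
          gcongr
          exact hc N

/-- The coefficients `divCoeff` grow at most linearly. -/
lemma norm_divCoeff_le (ℓ : ℕ) (b : ℤ) (N : ℕ) :
    ‖Eis1Arith.divCoeff ℓ b N‖ ≤ (‖(π : ℂ) * Complex.cot (π * b / ℓ)‖ + 4 * π) * ((N : ℝ) + 1) := by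
  have h0 : 0 ≤ ‖(π : ℂ) * Complex.cot (π * b / ℓ)‖ := norm_nonneg _
  have hπ := Real.pi_pos
  have hN : (0 : ℝ) ≤ N := Nat.cast_nonneg N
  by_cases h : N = 0
  · subst h
    simp only [Eis1Arith.divCoeff, if_true, Nat.cast_zero, zero_add, mul_one]
    linarith
  · simp only [Eis1Arith.divCoeff, h, if_false]
    rw [norm_mul, norm_mul]
    have h4 : ‖(4 : ℂ)‖ = 4 := by simp
    have hπn : ‖(π : ℂ)‖ = π := by
      rw [Complex.norm_real]; exact abs_of_pos Real.pi_pos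
    rw [h4, hπn]
    have hs : ‖∑ n ∈ N.divisors, Complex.sin (2 * π * n * b / ℓ)‖ ≤ (N : ℝ) := by
      calc ‖∑ n ∈ N.divisors, Complex.sin (2 * π * n * b / ℓ)‖
          ≤ ∑ n ∈ N.divisors, ‖Complex.sin (2 * π * n * b / ℓ)‖ := norm_sum_le _ _
        _ ≤ ∑ _n ∈ N.divisors, (1 : ℝ) := by
            refine Finset.sum_le_sum fun n _ => ?_
            exact norm_sin_real_le _ (2 * π * (n : ℝ) * (b : ℝ) / (ℓ : ℝ)) (by push_cast; ring)
        _ = (N.divisors.card : ℝ) := by simp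
        _ ≤ (N : ℝ) := by exact_mod_cast Nat.card_divisors_le_self N
    calc 4 * π * ‖∑ n ∈ N.divisors, Complex.sin (2 * π * n * b / ℓ)‖
        ≤ 4 * π * (N : ℝ) := by gcongr
      _ ≤ (‖(π : ℂ) * Complex.cot (π * b / ℓ)‖ + 4 * π) * ((N : ℝ) + 1) := by nlinarith

/-- **Holomorphy of the division value `E_(0,b)`** (the field `holo` of `DivData`). -/
theorem mdiff_Ediv_zero (hc : CotBridge) (ℓ : ℕ) [NeZero ℓ] (b : ℤ) (hb : ¬ (ℓ : ℤ) ∣ b) :
    MDiff (Eis1Zeta.Ediv ℓ 0 b) :=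
  mdiff_of_hasSum_qseries _ (Eis1Arith.divCoeff ℓ b) _ (norm_divCoeff_le ℓ b)
    (fun τ => hasSum_Ediv_zero hc ℓ b hb τ)

end Fermat.Agent.S48.Eis1
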