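/-
S48 (Deligne–Serre), brick D: weight one Eisenstein series of level `N` attached to an arbitrary
odd function `u : ZMod N → ℂ`.

* `eisU1 N u : ModularForm (Gamma1 N) 1` with `q`-expansion
  `-∑_{k<N} u(k) k + 2N ∑_{m ≥ 1} (∑_{d ∣ m} u(d)) q^m` (for odd `u`) and
  `eisU1 N u ∣[1] γ = eisU1 N (u (· * d_γ))` for `γ ∈ Γ₀(N)`;
* `eisH N a` (the case `u = -(2N)⁻¹ (δ_a - δ_{-a})`): the rational family
  `H_a = (a/N - 1/2) - ∑_m (#{d ∣ m : d ≡ a} - #{d ∣ m : d ≡ -a}) q^m`, `H_a ∣ γ = H_{a·a_γ}`;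
* `exists_odd_integral_form`: for `3 ≤ M` a nonzero form of odd weight on `Γ₁(M)` with integer
  `q`-expansion.

The analytic input is `divData N` (`Fermat/Agent/S48/Eis1.lean`); the packaging `combForm` and the
finite Fourier analysis pattern are those of `Fermat/Agent/S48/Eis1Arith` (the case `u = χ`).
-/
import Fermat.Agent.S48.Eis1
import Fermat.Agent.S48.Eis1Arith.Trig

set_option autoImplicit false

namespace Fermat.Agent.S48.Eis1

open UpperHalfPlane hiding I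
open ModularForm CongruenceSubgroup Complex ModularFormClass Finset
open Fermat.Agent.S48.Eis1Arith
open scoped MatrixGroups Manifold Real

noncomputable section

variable {N : ℕ} [NeZero N]

local notation "e" => (ZMod.stdAddChar (N := N))

/-- The finite Fourier transform `∑_a u(a) e(ac)`. -/
def gsU (u : ZMod N → ℂ) (c : ZMod N) : ℂ := ∑ a : ZMod N, u a * e (a * c)

/-- The weights of the Eisenstein series attached to `u`. -/
def wtU (u : ZMod N → ℂ) (c : ZMod N) : ℂ := (2 * π * I)⁻¹ * gsU u c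

/-- Orthogonality: `∑_c gsU u c * e(kc) = N u(-k)`. -/
lemma sum_gsU_mul (u : ZMod N → ℂ) (k : ZMod N) :
    ∑ c : ZMod N, gsU u c * e (k * c) = N * u (-k) := by
  classical
  simp only [gsU, Finset.sum_mul]
  rw [Finset.sum_comm]
  have h1 : ∀ a : ZMod N, ∑ c : ZMod N, u a * e (a * c) * e (k * c)
      = u a * (if a + k = 0 then (N : ℂ) else 0) := by
    intro a
    have h2 : ∑ x : ZMod N, e (x * (a + k)) = if a + k = 0 then (N : ℂ) else 0 := by
      have h3 := AddChar.sum_mulShift (a + k) (ZMod.isPrimitive_stdAddChar N)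
      rw [ZMod.card] at h3
      rw [h3]
      split_ifs <;> simp
    rw [← h2, Finset.mul_sum]
    refine Finset.sum_congr rfl fun c _ => ?_
    rw [mul_assoc, ← AddChar.map_add_eq_mul]
    congr 2
    ring
  rw [Finset.sum_congr rfl fun a _ => h1 a]
  rw [Finset.sum_eq_single (-k)]
  · simp [mul_comm]
  · intro a _ ha
    rw [if_neg, mul_zero]
    intro h
    exact ha (eq_neg_of_add_eq_zero_left h)
  · intro h
    exact absurd (Finset.mem_univ _) h

omit [NeZero N] in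
lemma u_zero_of_odd {u : ZMod N → ℂ} (hu : ∀ k, u (-k) = -u k) : u 0 = 0 := by
  have h := hu 0
  rw [neg_zero] at h
  have h2 : (2 : ℂ) * u 0 = 0 := by linear_combination h
  simpa using h2

lemma gsU_zero_of_odd {u : ZMod N → ℂ} (hu : ∀ k, u (-k) = -u k) : gsU u 0 = 0 := by
  have h0 : gsU u 0 = ∑ a : ZMod N, u a := by simp [gsU]
  have h1 : ∑ a : ZMod N, u a = ∑ a : ZMod N, u (-a) :=
    (Equiv.sum_comp (Equiv.neg (ZMod N)) (fun a => u a)).symm
  have h2 : ∑ a : ZMod N, u (-a) = -∑ a : ZMod N, u a := by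
    rw [← Finset.sum_neg_distrib]
    exact Finset.sum_congr rfl fun a _ => hu a
  have h3 : (2 : ℂ) * ∑ a : ZMod N, u a = 0 := by linear_combination h1.trans h2
  rw [h0]
  simpa using h3

/-- Twisting by a unit: `gsU (u (· * d)) (c * d) = gsU u c`. -/
lemma gsU_mul_unit (u : ZMod N → ℂ) (c : ZMod N) (d : (ZMod N)ˣ) :
    gsU (fun x => u (x * (d : ZMod N))) (c * (d : ZMod N)) = gsU u c := by
  simp only [gsU]
  have h := Equiv.sum_comp (Units.mulRight d) (fun a : ZMod N => u a * e (a * c))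
  rw [← h]
  refine Finset.sum_congr rfl fun a _ => ?_
  simp only [Units.mulRight_apply]
  have h1 : a * (c * d) = a * d * c := by ring
  rw [h1]

lemma wtU_mul_unit (u : ZMod N → ℂ) (c : ZMod N) (d : (ZMod N)ˣ) :
    wtU (fun x => u (x * (d : ZMod N))) (c * (d : ZMod N)) = wtU u c := by
  simp only [wtU]
  rw [gsU_mul_unit u c d]

/-- The higher coefficients: `∑_c wtU u c * dz N c m = 2N ∑_{d ∣ m} u(d)`. -/
theorem sum_wtU_dz {u : ZMod N → ℂ} (hu : ∀ k, u (-k) = -u k) {m : ℕ} (hm : m ≠ 0) :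
    ∑ c : ZMod N, wtU u c * dz N c m = 2 * N * ∑ d ∈ m.divisors, u (d : ZMod N) := by
  have h1 : ∀ c : ZMod N, wtU u c * dz N c m
      = -∑ n ∈ m.divisors, (gsU u c * e ((n : ZMod N) * c)
          - gsU u c * e ((-(n : ZMod N)) * c)) := by
    intro c
    rw [dz_of_ne_zero c hm, wtU, ← Finset.sum_neg_distrib, Finset.mul_sum, Finset.mul_sum]
    refine Finset.sum_congr rfl fun n _ => ?_
    rw [neg_mul (n : ZMod N) c]
    field_simp [two_pi_I_ne]
  rw [Finset.sum_congr rfl fun c _ => h1 c, Finset.sum_neg_distrib, Finset.sum_comm,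
    Finset.mul_sum, ← Finset.sum_neg_distrib]
  refine Finset.sum_congr rfl fun n _ => ?_
  rw [Finset.sum_sub_distrib, sum_gsU_mul, sum_gsU_mul, neg_neg, hu]
  ring

/-- The constant coefficient: `∑_c wtU u c * dz N c 0 = -∑_{k<N} u(k) k`. -/
theorem sum_wtU_dz_zero {u : ZMod N → ℂ} (hu : ∀ k, u (-k) = -u k) :
    ∑ c : ZMod N, wtU u c * dz N c 0 = -∑ k ∈ range N, u (k : ZMod N) * k := by
  have hN : (N : ℂ) ≠ 0 := Nat.cast_ne_zero.mpr (NeZero.ne N)
  have h1 : ∀ c : ZMod N, wtU u c * dz N c 0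
      = 2⁻¹ * (gsU u c * e ((0 : ZMod N) * c))
        + (N : ℂ)⁻¹ * ∑ k ∈ range N, (k : ℂ) * (gsU u c * e ((k : ZMod N) * c)) := by
    intro c
    by_cases hc : c = 0
    · subst hc
      simp [dz, wtU, gsU_zero_of_odd hu]
    · rw [dz_zero, if_neg hc, wtU]
      have h2 : ∑ k ∈ range N, (k : ℂ) * (gsU u c * e ((k : ZMod N) * c))
          = gsU u c * ∑ k ∈ range N, (k : ℂ) * e ((k : ZMod N) * c) := by
        rw [Finset.mul_sum]
        exact Finset.sum_congr rfl fun k _ => by ring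
      rw [h2, zero_mul, AddChar.map_zero_eq_one]
      field_simp [two_pi_I_ne]
  rw [Finset.sum_congr rfl fun c _ => h1 c, Finset.sum_add_distrib, ← Finset.mul_sum,
    ← Finset.mul_sum, sum_gsU_mul, Finset.sum_comm]
  have h3 : ∀ k ∈ range N, ∑ c : ZMod N, (k : ℂ) * (gsU u c * e ((k : ZMod N) * c))
      = (N : ℂ) * (-(u (k : ZMod N) * k)) := by
    intro k _
    rw [← Finset.mul_sum, sum_gsU_mul, hu]
    ring
  rw [Finset.sum_congr rfl h3, ← Finset.mul_sum, neg_zero, u_zero_of_odd hu,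
    Finset.sum_neg_distrib]
  field_simp
  ring

/-- **The weight one Eisenstein series of level `N` attached to `u : ZMod N → ℂ`** (of interest
for odd `u`). -/
def eisU1 (N : ℕ) [NeZero N] (u : ZMod N → ℂ) :
    ModularForm (Gamma1 N : Subgroup (GL (Fin 2) ℝ)) 1 :=
  (divData N).combForm (wtU u)

/-- The constant coefficient of `eisU1 N u`. -/
theorem qCoeff_eisU1_zero {u : ZMod N → ℂ} (hu : ∀ k, u (-k) = -u k) :
    qCoeff (eisU1 N u) 0 = -∑ k ∈ Finset.range N, u (k : ZMod N) * k := by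
  rw [eisU1, (divData N).qCoeff_combForm, sum_wtU_dz_zero hu]

/-- The higher coefficients of `eisU1 N u`. -/
theorem qCoeff_eisU1 {u : ZMod N → ℂ} (hu : ∀ k, u (-k) = -u k) {m : ℕ} (hm : m ≠ 0) :
    qCoeff (eisU1 N u) m = 2 * N * ∑ d ∈ m.divisors, u (d : ZMod N) := by
  rw [eisU1, (divData N).qCoeff_combForm, sum_wtU_dz hu hm]

/-- The action of `Γ₀(N)`: `eisU1 N u ∣[1] γ = eisU1 N (u (· * d))`, `d` the lower right entry. -/
theorem eisU1_slash (u : ZMod N → ℂ) (γ : SL(2, ℤ)) (hγ : γ ∈ Gamma0 N) :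
    (⇑(eisU1 N u)) ∣[(1 : ℤ)] γ = ⇑(eisU1 N (fun x => u (x * ((γ 1 1 : ℤ) : ZMod N)))) := by
  have h10 : ((γ 1 0 : ℤ) : ZMod N) = 0 := Gamma0_mem.mp hγ
  have hu : ((γ 1 1 : ℤ) : ZMod N) * ((γ 0 0 : ℤ) : ZMod N) = 1 := by
    have := congrArg (fun x : ℤ => (x : ZMod N)) (DivData.det_eq γ)
    simp only [Int.cast_sub, Int.cast_mul, h10, mul_zero, sub_zero, Int.cast_one] at this
    rw [mul_comm]
    exact this
  set d : (ZMod N)ˣ := Units.mkOfMulEqOne _ _ hu with hd_def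
  have hval : ((d : (ZMod N)ˣ) : ZMod N) = ((γ 1 1 : ℤ) : ZMod N) := rfl
  funext τ
  change ((divData N).comb (wtU u) ∣[(1 : ℤ)] γ) τ =
    (divData N).comb (wtU (fun x => u (x * ((γ 1 1 : ℤ) : ZMod N)))) τ
  rw [(divData N).comb_slash (wtU u) γ hγ, ← hval]
  simp only [DivData.comb]
  rw [← Equiv.sum_comp (Units.mulRight d)
    (fun c : ZMod N => wtU (fun x => u (x * (d : ZMod N))) c * (divData N).Ez c τ)]
  refine Finset.sum_congr rfl fun c _ => ?_
  simp only [Units.mulRight_apply]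
  rw [wtU_mul_unit u c d]

/-! ### The rational family `H_a` -/

/-- The odd function `-(2N)⁻¹ (δ_a - δ_{-a})` on `ZMod N`. -/
def uH (a : ZMod N) (x : ZMod N) : ℂ :=
  -(2 * (N : ℂ))⁻¹ * ((if x = a then 1 else 0) - (if x = -a then 1 else 0))

omit [NeZero N] in
lemma uH_neg (a x : ZMod N) : uH a (-x) = -uH a x := by
  unfold uH
  have h1 : (-x = a) ↔ (x = -a) := neg_eq_iff_eq_neg
  have h2 : (-x = -a) ↔ (x = a) := neg_inj
  simp only [h1, h2]
  ring

/-- **The rational weight one Eisenstein series `H_a` of level `N`**, `a : ZMod N`: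
`H_a = (a/N - 1/2) - ∑_{m ≥ 1} (#{d ∣ m : d ≡ a} - #{d ∣ m : d ≡ -a}) q^m`. -/
def eisH (N : ℕ) [NeZero N] (a : ZMod N) : ModularForm (Gamma1 N : Subgroup (GL (Fin 2) ℝ)) 1 :=
  eisU1 N (uH a)

/-- `∑_{k<N} [k ≡ b] k = b.val`. -/
lemma sum_range_ite_eq (b : ZMod N) :
    ∑ k ∈ Finset.range N, (if (k : ZMod N) = b then (k : ℂ) else 0) = (b.val : ℂ) := by
  rw [Finset.sum_eq_single b.val]
  · rw [if_pos (ZMod.natCast_zmod_val b)]
  · intro k hk hkb
    rw [if_neg]
    intro h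
    apply hkb
    rw [← h, ZMod.val_natCast, Nat.mod_eq_of_lt (Finset.mem_range.mp hk)]
  · intro h
    exact absurd (Finset.mem_range.mpr (ZMod.val_lt b)) h

/-- The higher coefficients of `H_a`. -/
theorem qCoeff_eisH (a : ZMod N) {m : ℕ} (hm : m ≠ 0) :
    qCoeff (eisH N a) m =
      -(((m.divisors.filter (fun d : ℕ => (d : ZMod N) = a)).card : ℂ) -
        ((m.divisors.filter (fun d : ℕ => (d : ZMod N) = -a)).card : ℂ)) := by
  have hN : (N : ℂ) ≠ 0 := Nat.cast_ne_zero.mpr (NeZero.ne N)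
  rw [eisH, qCoeff_eisU1 (uH_neg a) hm]
  simp only [uH]
  rw [← Finset.mul_sum, Finset.sum_sub_distrib, Finset.sum_boole, Finset.sum_boole]
  field_simp

/-- The constant coefficient of `H_a`, `a ≠ 0`: `a/N - 1/2` (with `0 < a < N` the representative
of `a`). -/
theorem qCoeff_eisH_zero {a : ZMod N} (ha : a ≠ 0) :
    qCoeff (eisH N a) 0 = (a.val : ℂ) / N - 1 / 2 := by
  have hN : (N : ℂ) ≠ 0 := Nat.cast_ne_zero.mpr (NeZero.ne N)
  rw [eisH, qCoeff_eisU1_zero (uH_neg a)]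
  have h1 : ∀ k ∈ Finset.range N, uH a (k : ZMod N) * k =
      -(2 * (N : ℂ))⁻¹ * ((if (k : ZMod N) = a then (k : ℂ) else 0) -
        (if (k : ZMod N) = -a then (k : ℂ) else 0)) := by
    intro k _
    unfold uH
    split_ifs <;> ring
  rw [Finset.sum_congr rfl h1, ← Finset.mul_sum, Finset.sum_sub_distrib, sum_range_ite_eq,
    sum_range_ite_eq, ZMod.neg_val, if_neg ha, Nat.cast_sub (ZMod.val_lt a).le]
  field_simp
  ring

/-- The action of `Γ₀(N)` on the family: `H_a ∣[1] γ = H_{a·a_γ}`, `a_γ` the upper left entry. -/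
theorem eisH_slash (a : ZMod N) (γ : SL(2, ℤ)) (hγ : γ ∈ Gamma0 N) :
    (⇑(eisH N a)) ∣[(1 : ℤ)] γ = ⇑(eisH N (a * ((γ 0 0 : ℤ) : ZMod N))) := by
  have h10 : ((γ 1 0 : ℤ) : ZMod N) = 0 := Gamma0_mem.mp hγ
  have hu : ((γ 1 1 : ℤ) : ZMod N) * ((γ 0 0 : ℤ) : ZMod N) = 1 := by
    have := congrArg (fun x : ℤ => (x : ZMod N)) (DivData.det_eq γ)
    simp only [Int.cast_sub, Int.cast_mul, h10, mul_zero, sub_zero, Int.cast_one] at this
    rw [mul_comm]
    exact this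
  rw [eisH, eisU1_slash (uH a) γ hγ, eisH]
  congr 2
  funext x
  unfold uH
  have key : ∀ b : ZMod N, (x * ((γ 1 1 : ℤ) : ZMod N) = b) ↔
      (x = b * ((γ 0 0 : ℤ) : ZMod N)) := by
    intro b
    constructor
    · intro h
      rw [← h, mul_assoc, hu, mul_one]
    · intro h
      rw [h, mul_assoc, mul_comm ((γ 0 0 : ℤ) : ZMod N), hu, mul_one]
  have h1 := key a
  have h2 := key (-a)
  rw [neg_mul] at h2
  simp only [h1, h2]

/-- `Γ₁(N)`-invariance of `H_a` in `SL(2, ℤ)` form. -/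
theorem eisH_slash_gamma1 (a : ZMod N) (γ : SL(2, ℤ)) (hγ : γ ∈ Gamma1 N) :
    (⇑(eisH N a)) ∣[(1 : ℤ)] γ = ⇑(eisH N a) := by
  have h00 : ((γ 0 0 : ℤ) : ZMod N) = 1 := ((Gamma1_mem N γ).mp hγ).1
  rw [eisH_slash a γ (Gamma1_in_Gamma0 N hγ), h00, mul_one]

/-! ### A nonzero integral form of odd weight -/

/-- The integer-valued odd function `δ_{-1} - δ_1`. -/
def vOdd (x : ZMod N) : ℂ := (if x = -1 then 1 else 0) - (if x = 1 then 1 else 0)

omit [NeZero N] in
lemma vOdd_neg (x : ZMod N) : vOdd (-x) = -vOdd x := by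
  unfold vOdd
  have h1 : (-x = -1) ↔ (x = 1) := neg_inj
  have h2 : (-x = 1) ↔ (x = -1) := neg_eq_iff_eq_neg
  simp only [h1, h2]
  ring

/-- **For `3 ≤ M` there is a nonzero modular form of odd weight on `Γ₁(M)` with integer
`q`-expansion**: `2M·H_1 = (2 - M) - 2M ∑_m (#{d ∣ m : d ≡ 1} - #{d ∣ m : d ≡ -1}) q^m`. -/
theorem exists_odd_integral_form {M : ℕ} [NeZero M] (hM : 3 ≤ M) :
    ∃ (w₀ : ℤ) (g₀ : ModularForm (Gamma1 M : Subgroup (GL (Fin 2) ℝ)) w₀), Odd w₀ ∧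
      (∀ n : ℕ, ∃ m : ℤ, ModularFormClass.qCoeff g₀ n = (m : ℂ)) ∧ g₀ ≠ 0 := by
  have h0 : qCoeff (eisU1 M (vOdd (N := M))) 0 = ((2 - (M : ℤ) : ℤ) : ℂ) := by
    rw [qCoeff_eisU1_zero vOdd_neg]
    have h1 : ∀ k ∈ Finset.range M, vOdd (k : ZMod M) * k =
        (if (k : ZMod M) = -1 then (k : ℂ) else 0) - (if (k : ZMod M) = 1 then (k : ℂ) else 0) := by
      intro k _
      unfold vOdd
      split_ifs <;> ring
    have hone : (1 : ZMod M) ≠ 0 := by
      have : Fact (1 < M) := ⟨by omega⟩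
      exact one_ne_zero
    have hv1 : (1 : ZMod M).val = 1 := ZMod.val_one'' (by omega)
    rw [Finset.sum_congr rfl h1, Finset.sum_sub_distrib, sum_range_ite_eq, sum_range_ite_eq,
      ZMod.neg_val, if_neg hone, hv1, Nat.cast_sub (by omega)]
    push_cast
    ring
  refine ⟨1, eisU1 M (vOdd (N := M)), odd_one, ?_, ?_⟩
  · intro n
    by_cases hn : n = 0
    · subst hn
      exact ⟨2 - (M : ℤ), h0⟩
    · refine ⟨2 * M * (((n.divisors.filter (fun d : ℕ => (d : ZMod M) = -1)).card : ℤ) -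
        ((n.divisors.filter (fun d : ℕ => (d : ZMod M) = 1)).card : ℤ)), ?_⟩
      rw [qCoeff_eisU1 vOdd_neg hn]
      simp only [vOdd]
      rw [Finset.sum_sub_distrib, Finset.sum_boole, Finset.sum_boole]
      push_cast
      ring
  · intro h
    have h2 : qCoeff (eisU1 M (vOdd (N := M))) 0 = 0 := by
      rw [h]
      simp [qCoeff, UpperHalfPlane.qExpansion_zero]
    rw [h0] at h2
    have h3 : (2 - (M : ℤ) : ℤ) = 0 := by exact_mod_cast h2
    omega

end

end Fermat.Agent.S48.Eis1
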