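/-
S48 (Deligne–Serre), brick D, analytic half (D1), piece (H) for general `a`: holomorphy of the
weight one division values `Ediv ℓ a b` on the upper half plane, from the `(u, q)`-series of
`Fermat/Agent/S48/Eis1/Bdd.lean`; and the unconditional forms (all `a b : ℤ`) of holomorphy and
of boundedness at `i∞`, by periodicity (`Fermat/Agent/S48/Eis1Per.lean`).
-/
import Fermat.Agent.S48.Eis1.Bdd
import Fermat.Agent.S48.Eis1Per

set_option autoImplicit false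

open UpperHalfPlane hiding I
open Complex Real Filter Topology ModularForm
open scoped Manifold MatrixGroups

noncomputable section

namespace Fermat.Agent.S48.Eis1

namespace Bdd

open Fermat.Agent.S48.Eis1Zeta

lemma differentiable_uu (ℓ : ℕ) (a b : ℤ) : Differentiable ℂ (uu ℓ a b) := by
  unfold uu
  fun_prop

lemma differentiable_qq : Differentiable ℂ qq := by
  unfold qq
  fun_prop

/-- `1 - u ≠ 0` at a division point off the lattice. -/
lemma one_sub_uu_ne_zero (ℓ : ℕ) [NeZero ℓ] (a b : ℤ) (hab : ¬ ((ℓ : ℤ) ∣ a ∧ (ℓ : ℤ) ∣ b))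
    {w : ℂ} (hw : 0 < w.im) : 1 - uu ℓ a b w ≠ 0 := by
  have h := one_sub_ne_zero _ (⟨w, hw⟩ : ℍ) (divpt_ne_lat ℓ a b hab ⟨w, hw⟩) 0
  simpa [uu] using h

/-- The comparison function on a half plane. -/
def GG (ℓ : ℕ) (a b : ℤ) (w : ℂ) : ℂ :=
  π * ((uu ℓ a b w + 1) / (I * (1 - uu ℓ a b w))) + 2 * π * I * (a : ℂ) / (ℓ : ℂ) +
    (-2 * π * I) * ∑' m : ℕ, term ℓ a b m w

lemma Ediv_ofComplex_eq (Hc : CotBridge) (ℓ : ℕ) [NeZero ℓ] (a b : ℤ) (ha0 : 0 ≤ a)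
    (hal : a < ℓ) (hab : ¬ ((ℓ : ℤ) ∣ a ∧ (ℓ : ℤ) ∣ b)) {w : ℂ} (hw : 0 < w.im) :
    (Ediv ℓ a b ∘ ofComplex) w = GG ℓ a b w := by
  rw [Function.comp_apply, ofComplex_apply_of_im_pos hw, Ediv_eq_uq Hc ℓ a b ha0 hal hab,
    cot_pi_eq_exp_ratio]
  rfl

lemma differentiableOn_term (ℓ : ℕ) [NeZero ℓ] (a b : ℤ) (ha0 : 0 ≤ a) (hal : a < ℓ) {c : ℝ}
    (hc : 0 < c) (m : ℕ) : DifferentiableOn ℂ (term ℓ a b m) {w : ℂ | c < w.im} := by
  have hρ1 := rho_lt_one ℓ hc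
  have hρ0 := rho_pos ℓ c
  have hpow : rho ℓ c ^ (m + 1) < 1 := pow_lt_one₀ hρ0.le hρ1 (by omega)
  unfold term T
  refine DifferentiableOn.sub ?_ ?_
  · refine DifferentiableOn.div ?_ ?_ ?_
    · exact ((differentiable_uu ℓ a b).mul (differentiable_qq.pow _)).differentiableOn
    · exact ((differentiable_const _).sub
        ((differentiable_uu ℓ a b).mul (differentiable_qq.pow _))).differentiableOn
    · intro w hw
      have b1 := norm_uu_mul_le ℓ a b ha0 hc.le (le_of_lt hw) m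
      exact one_sub_ne_zero_of_norm_lt (lt_of_le_of_lt b1 hpow)
  · refine DifferentiableOn.div ?_ ?_ ?_
    · exact (differentiable_qq.pow _).differentiableOn
    · exact ((differentiable_uu ℓ a b).sub (differentiable_qq.pow _)).differentiableOn
    · intro w hw h0
      have b2 := norm_qq_div_le ℓ a b hal hc.le (le_of_lt hw) m
      have e : qq w ^ (m + 1) = uu ℓ a b w := by linear_combination -h0
      rw [e, div_self (uu_ne_zero ℓ a b w), norm_one] at b2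
      linarith

lemma differentiableOn_GG (ℓ : ℕ) [NeZero ℓ] (a b : ℤ) (ha0 : 0 ≤ a) (hal : a < ℓ)
    (hab : ¬ ((ℓ : ℤ) ∣ a ∧ (ℓ : ℤ) ∣ b)) {c : ℝ} (hc : 0 < c) :
    DifferentiableOn ℂ (GG ℓ a b) {w : ℂ | c < w.im} := by
  have hU : IsOpen {w : ℂ | c < w.im} := isOpen_lt continuous_const Complex.continuous_im
  unfold GG
  refine DifferentiableOn.add (DifferentiableOn.add ?_ ?_) ?_
  · refine DifferentiableOn.const_mul ?_ _
    refine DifferentiableOn.div ?_ ?_ ?_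
    · exact ((differentiable_uu ℓ a b).add (differentiable_const _)).differentiableOn
    · exact ((differentiable_const _).mul
        ((differentiable_const _).sub (differentiable_uu ℓ a b))).differentiableOn
    · intro w hw
      have hw' : 0 < w.im := lt_trans hc hw
      exact mul_ne_zero I_ne_zero (one_sub_uu_ne_zero ℓ a b hab hw')
  · exact differentiableOn_const _
  · refine DifferentiableOn.const_mul ?_ _
    exact differentiableOn_tsum_of_summable_norm (summable_bound ℓ hc)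
      (fun m => differentiableOn_term ℓ a b ha0 hal hc m) hU
      (fun m w hw => norm_term_le ℓ a b ha0 hal hc (le_of_lt hw) m)

end Bdd

open Bdd in
/-- **(H)** for general `a`: the division values `Ediv ℓ a b`, `0 ≤ a < ℓ`, `(a, b) ∉ ℓℤ²`, are
holomorphic on the upper half plane. -/
theorem mdiff_of_bridge (hc : CotBridge) (ℓ : ℕ) [NeZero ℓ] (a b : ℤ) (ha0 : 0 ≤ a) (hal : a < ℓ)
    (h : ¬ ((ℓ : ℤ) ∣ a ∧ (ℓ : ℤ) ∣ b)) : MDiff (Eis1Zeta.Ediv ℓ a b) := by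
  rw [UpperHalfPlane.mdifferentiable_iff]
  intro w₀ hw₀
  apply DifferentiableAt.differentiableWithinAt
  have hw₀' : 0 < w₀.im := hw₀
  have hc0 : 0 < w₀.im / 2 := by positivity
  have hU : IsOpen {w : ℂ | w₀.im / 2 < w.im} :=
    isOpen_lt continuous_const Complex.continuous_im
  have hmem : w₀ ∈ {w : ℂ | w₀.im / 2 < w.im} := by
    show w₀.im / 2 < w₀.im
    linarith
  have hG := (differentiableOn_GG ℓ a b ha0 hal h hc0).differentiableAt (hU.mem_nhds hmem)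
  refine hG.congr_of_eventuallyEq ?_
  filter_upwards [hU.mem_nhds hmem] with w hw
  exact Ediv_ofComplex_eq hc ℓ a b ha0 hal h (lt_trans hc0 hw)

/-! ### Unconditional forms (all `a b : ℤ`) -/

namespace Bdd

/-- Reduction of the first index modulo `ℓ`. -/
lemma Ediv_emod (ℓ : ℕ) [NeZero ℓ] (a b : ℤ) :
    Eis1Zeta.Ediv ℓ a b = Eis1Zeta.Ediv ℓ (a % (ℓ : ℤ)) b :=
  Eis1Per.Ediv_congr ℓ (Int.mod_modEq a ℓ).symm (Int.ModEq.refl b)

lemma not_dvd_emod (ℓ : ℕ) (a b : ℤ) (h : ¬ ((ℓ : ℤ) ∣ a ∧ (ℓ : ℤ) ∣ b)) :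
    ¬ ((ℓ : ℤ) ∣ a % (ℓ : ℤ) ∧ (ℓ : ℤ) ∣ b) := by
  rintro ⟨h1, h2⟩
  exact h ⟨(Int.dvd_iff_emod_eq_zero).mpr (by
    have := Int.emod_emod_of_dvd a (dvd_refl (ℓ : ℤ))
    rw [← this]
    exact Int.emod_eq_zero_of_dvd h1), h2⟩

end Bdd

/-- The division values are holomorphic on the upper half plane, for all `a b : ℤ`. -/
theorem mdiff_Ediv_all (ℓ : ℕ) [NeZero ℓ] (a b : ℤ) : MDiff (Eis1Zeta.Ediv ℓ a b) := by
  by_cases h : (ℓ : ℤ) ∣ a ∧ (ℓ : ℤ) ∣ b
  · rw [Eis1Per.Ediv_eq_zero ℓ h.1 h.2]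
    exact mdifferentiable_const
  · have hℓ : (0 : ℤ) < (ℓ : ℤ) := by exact_mod_cast Nat.pos_of_ne_zero (NeZero.ne ℓ)
    rw [Bdd.Ediv_emod]
    exact mdiff_of_bridge Eis1Zeta.tendsto_E1_cot ℓ _ b (Int.emod_nonneg a hℓ.ne')
      (Int.emod_lt_of_pos a hℓ) (Bdd.not_dvd_emod ℓ a b h)

/-- The division values are bounded at `i∞`, for all `a b : ℤ`. -/
theorem bdd_Ediv_all (ℓ : ℕ) [NeZero ℓ] (a b : ℤ) : IsBoundedAtImInfty (Eis1Zeta.Ediv ℓ a b) := by
  by_cases h : (ℓ : ℤ) ∣ a ∧ (ℓ : ℤ) ∣ b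
  · rw [Eis1Per.Ediv_eq_zero ℓ h.1 h.2]
    exact zero_form_isBoundedAtImInfty
  · have hℓ : (0 : ℤ) < (ℓ : ℤ) := by exact_mod_cast Nat.pos_of_ne_zero (NeZero.ne ℓ)
    rw [Bdd.Ediv_emod]
    exact bdd_of_bridge Eis1Zeta.tendsto_E1_cot ℓ _ b (Int.emod_nonneg a hℓ.ne')
      (Int.emod_lt_of_pos a hℓ) (Bdd.not_dvd_emod ℓ a b h)

/-- Every `SL(2, ℤ)`-translate of a division value is bounded at `i∞` (boundedness at every
cusp). -/
theorem bdd_Ediv_slash (ℓ : ℕ) [NeZero ℓ] (a b : ℤ) (γ : SL(2, ℤ)) :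
    IsBoundedAtImInfty ((Eis1Zeta.Ediv ℓ a b) ∣[(1 : ℤ)] γ) := by
  have := Eis1Zeta.Ediv_slash ℓ a b γ
  rw [this]
  exact bdd_Ediv_all ℓ _ _

end Fermat.Agent.S48.Eis1
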